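/-
Programme T1B (row 38 via S44), brick LOCAL46 (helper46): THE ABSTRACT LOCAL CHAIN — how the outputs of the six
T1B cells compose (pure group theory; `Mathlib` + `KL46/Abstract` + `Node45/PhiAbs`).

`A = J(K̄_p)`, `I` = inertia at `p`, `D : KL46.LocalData I A p` (`J1 ≤ J0`, `K = ker β`, `χ`, the axioms
`sub_mem_J0`, `sub_mem_J1`, `toric`), `V = ι(E[p]) ≤ K ∩ A[p]` with the `E`-side basis `P₀, Q`
(`s P₀ = χ(s) P₀`, `s Q = Q + c(s) P₀`, one-unit `w` with `s w = w ζ^{c(s)}`: brick E-SIDE44), the toric map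
`ιT` (TORIC50: values in `J1`, multiplicative, equivariant, and every element of `J1 ∩ K ∩ A[p]` is
`ιT(ζ^m)`), the `Φ`-step inputs (NODE/PHI: `hphi`, `hTc`, `hTJ0`), a non-Eisenstein prime (`p ∤ a_ℓ - (ℓ+1)`,
GLOBAL44) and the `q`-dlog `δ` (RED/HECKE F8': `x ∈ J0[p]`, `δ x = 0 ⇒ x ∈ J1`; only this property of `δ` is
used here, `δ` may be any function, e.g. extended by `0` outside `A[p]`).

**`exists_delta_ne_zero`** : `δ` does not vanish on `V`.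
(Then `δ(V)` is a nonzero Hecke-stable space of weight 2 level `M'` cusp forms mod `p`: the predicate `Sp` of
`Top68/Global.LOCAL44`.)

Steps: `P₀ ∈ J1` (`KL46.chi_line_mem_J1`) ⇒ `P₀ = ιT(ζ^m)` ⇒ `Q - ιT(w^m)` is `I`-invariant
(`KL46.exists_toric_correction`) ⇒ (tor) for all of `V` ⇒ `V ≤ J0` (`PhiAbs.le_of_toric_of_phi`) ⇒ if `δ V = 0` then
`V ≤ J1`, so `I` acts on `Q` through `χ` (`toric`), whence `(χ(s₀) - 1) Q ∈ ⟨P₀⟩` and `χ(s₀) ≡ 1`, contradiction.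
-/
import Mathlib
import Fermat.Agent.T1.KL46.Abstract
import Fermat.Agent.T1B.Node45.PhiAbs

set_option autoImplicit false
set_option linter.unusedSectionVars false
set_option linter.unusedVariables false

namespace Fermat.Agent.T1B.Local46

open Fermat.Agent.T1.KL46.Abstract Fermat.Agent.T1B.Node45.PhiAbs

variable {I A : Type*} [Group I] [AddCommGroup A] [DistribMulAction I A]
variable {U : Type*} [CommGroup U] [MulDistribMulAction I U] {En : Type*} {p : ℕ}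

/-- (tor): every element of `V = ⟨Q, P₀⟩` is congruent modulo `J0` to an `I`-invariant class. -/
theorem exists_invariant_correction (D : LocalData I A p) (V : AddSubgroup A) (P₀ Q : A)
    (hspan : ∀ x ∈ V, ∃ i j : ℕ, x = i • Q + j • P₀) (hP₀J1 : P₀ ∈ D.J1)
    {t₀ : A} (ht₀ : t₀ ∈ D.J1) (hinv : ∀ s : I, s • (Q - t₀) = Q - t₀) :
    ∀ P ∈ V, ∃ t ∈ D.J0, ∀ s : I, s • (P - t) = P - t := by
  intro P hP
  obtain ⟨i, j, rfl⟩ := hspan P hP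
  refine ⟨i • t₀ + j • P₀, D.J0.add_mem (D.J0.nsmul_mem (D.J1_le ht₀) i)
    (D.J0.nsmul_mem (D.J1_le hP₀J1) j), fun s => ?_⟩
  have e : i • Q + j • P₀ - (i • t₀ + j • P₀) = i • (Q - t₀) := by
    rw [smul_sub]; abel
  rw [e, smul_comm, hinv s]

/-- **The local chain.** -/
theorem exists_delta_ne_zero (D : LocalData I A p) (hp : p.Prime)
    -- the image of `E[p]` and the `E`-side
    (V : AddSubgroup A) (P₀ Q : A) (hP₀V : P₀ ∈ V) (hQV : Q ∈ V)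
    (hspan : ∀ x ∈ V, ∃ i j : ℕ, x = i • Q + j • P₀)
    (hVp : ∀ x ∈ V, p • x = 0) (hVK : V ≤ D.K)
    (hindep : ∀ n : ℤ, n • Q ∈ AddSubgroup.zmultiples P₀ → (p : ℤ) ∣ n)
    (c : I → ℕ) (hP₀ : ∀ s : I, s • P₀ = D.chi s • P₀) (hQ : ∀ s : I, s • Q = Q + c s • P₀)
    (s₀ : I) {m₀ : ℕ} (hm₀ : D.chi s₀ * m₀ ≡ m₀ + 1 [MOD p])
    (ζ w : U) (hw : ∀ s : I, s • w = w * ζ ^ c s)
    -- TORIC50
    (ιT : (En → U) → A) (hι_mul : ∀ a b : En → U, ιT (a * b) = ιT a + ιT b)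
    (hι_eq : ∀ (s : I) (a : En → U), ιT (fun e => s • a e) = s • ιT a)
    (hιJ1 : ∀ a : En → U, ιT a ∈ D.J1)
    (htorpt : ∀ x ∈ D.J1, x ∈ D.K → p • x = 0 → ∃ m : En → ℕ, x = ιT (fun e => ζ ^ m e))
    -- NODE/PHI + non-Eisenstein
    (T : A →+ A) (hTJ0 : ∀ x ∈ D.J0, T x ∈ D.J0) {a l1 : ℤ} (hTV : ∀ x ∈ V, T x = a • x) {cc : A}
    (hTc : T cc - l1 • cc ∈ D.J0) {N : ℤ} (hN : ¬ (p : ℤ) ∣ N) (hne : ¬ (p : ℤ) ∣ a - l1)
    (hphi : ∀ y : A, (∀ s : I, s • y = y) → ∃ m : ℤ, N • y - m • cc ∈ D.J0)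
    -- the `q`-dlog
    {Dd : Type*} [Zero Dd] (δ : A → Dd)
    (hK : ∀ x ∈ D.J0, p • x = 0 → δ x = 0 → x ∈ D.J1) :
    ∃ x ∈ V, δ x ≠ 0 := by
  -- `P₀ ∈ J1`, hence toric
  have hP₀J1 : P₀ ∈ D.J1 := chi_line_mem_J1 D (hVp P₀ hP₀V) hP₀ s₀ hm₀
  obtain ⟨m, hm⟩ := htorpt P₀ hP₀J1 (hVK hP₀V) (hVp P₀ hP₀V)
  -- the toric correction of `Q`
  obtain ⟨z, hz⟩ := exists_toric_correction ιT hι_mul hι_eq (AddMonoidHom.id A)
    (fun s v => rfl) ζ m P₀ hm Q w c hQ hw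
  simp only [AddMonoidHom.id_apply] at hz
  have htor := exists_invariant_correction D V P₀ Q hspan hP₀J1 (hιJ1 z) hz
  -- the `Φ`-step
  have hVJ0 : V ≤ D.J0 := le_of_toric_of_phi D.J0 V hp T hTJ0 hTV hTc hN hne hVp htor hphi
  -- the endgame
  by_contra hcon
  push Not at hcon
  have hVJ1 : ∀ x ∈ V, x ∈ D.J1 := fun x hx => hK x (hVJ0 hx) (hVp x hx) (hcon x hx)
  have h1 := D.toric Q (hVJ1 Q hQV) (hVK hQV) (hVp Q hQV) s₀
  rw [hQ s₀] at h1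
  -- `(χ(s₀) - 1) • Q = c(s₀) • P₀`
  have h2 : ((D.chi s₀ : ℤ) - 1) • Q ∈ AddSubgroup.zmultiples P₀ := by
    have e : ((D.chi s₀ : ℤ) - 1) • Q = (c s₀ : ℤ) • P₀ := by
      rw [sub_smul, one_smul, natCast_zsmul, natCast_zsmul, ← h1]
      abel
    rw [e]
    exact AddSubgroup.zsmul_mem _ (AddSubgroup.mem_zmultiples P₀) _
  have h3 := hindep _ h2
  -- `χ(s₀) ≡ 1`, contradiction with `χ(s₀) m₀ ≡ m₀ + 1`
  have h4 : (D.chi s₀ : ℤ) ≡ 1 [ZMOD (p : ℤ)] := by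
    rw [Int.modEq_iff_dvd]
    have : (1 : ℤ) - (D.chi s₀ : ℤ) = -((D.chi s₀ : ℤ) - 1) := by ring
    rw [this]
    exact (dvd_neg.mpr h3)
  have h5 : ((D.chi s₀ * m₀ : ℕ) : ℤ) ≡ ((m₀ + 1 : ℕ) : ℤ) [ZMOD (p : ℤ)] :=
    Int.natCast_modEq_iff.mpr hm₀
  have h6 : ((D.chi s₀ * m₀ : ℕ) : ℤ) ≡ (m₀ : ℤ) [ZMOD (p : ℤ)] := by
    push_cast
    have := h4.mul_right (m₀ : ℤ)
    rwa [one_mul] at this
  have h7 : (m₀ : ℤ) ≡ (m₀ : ℤ) + 1 [ZMOD (p : ℤ)] := by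
    have := h6.symm.trans h5
    push_cast at this
    exact this
  have h8 : (p : ℤ) ∣ 1 := by
    have := (Int.modEq_iff_dvd.mp h7)
    simpa using this
  have h9 : p ∣ 1 := by exact_mod_cast h8
  exact hp.one_lt.ne' (Nat.dvd_one.mp h9)

end Fermat.Agent.T1B.Local46
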